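import Mathlib.Algebra.Field.ZMod
import Mathlib.Combinatorics.SimpleGraph.Clique
import Mathlib.LinearAlgebra.Dimension.Constructions
import Mathlib.Algebra.Order.Ring.Rat
import Mathlib.Data.Nat.Choose.Bounds
import Mathlib.Data.Nat.Prime.Infinite
import Mathlib.Tactic

/-!
# The intersection theorems of Frankl and Wilson

Functions of a set `B` given by products of linear forms in the indicators lie in the span of the
functions `B ↦ [T ⊆ B]` with small `T`, and those attached to the members of the family are
triangular, hence independent.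
-/

set_option autoImplicit false

noncomputable section

open Finset

namespace FA.FranklWilson

variable {α K : Type*} [DecidableEq α] [Field K]

/-- The monomial `B ↦ [T ⊆ B]`. -/
def mono (K : Type*) [Field K] (T : Finset α) : Finset α → K :=
  fun B => if T ⊆ B then 1 else 0

/-- A triangular family in a span is small. -/
theorem card_le_of_triangular (S F : Finset (Finset α)) (f : Finset α → Finset α → K)
    (hf : ∀ A ∈ F, f A ∈ Submodule.span K (mono K '' (S : Set (Finset α))))
    (hd : ∀ A ∈ F, f A A ≠ 0) (ht : ∀ A ∈ F, ∀ B ∈ F, A ≠ B → #B ≤ #A → f A B = 0) :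
    #F ≤ #S := by
  classical
  have hind : LinearIndependent K (fun A : F => f A.1) := by
    rw [Fintype.linearIndependent_iff]
    intro c hc
    by_contra! hne
    obtain ⟨B, hB, hmin⟩ := exists_min_image ({A | c A ≠ 0} : Finset F) (fun A => #A.1)
      (by obtain ⟨A, hA⟩ := hne; exact ⟨A, by simp [hA]⟩)
    rw [mem_filter] at hB
    have := congrFun hc B.1
    rw [Finset.sum_apply, sum_eq_single B] at this
    · simp only [Pi.smul_apply, smul_eq_mul, Pi.zero_apply, mul_eq_zero] at this
      exact this.elim hB.2 (hd B.1 B.2)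
    · intro A _ hAB
      by_cases hA : c A = 0
      · simp [hA]
      · simp [ht A.1 A.2 B.1 B.2 (fun h => hAB (Subtype.ext h)) (hmin A (by simp [hA]))]
    · simp
  rw [← coe_image] at hf
  have h1 : Submodule.span K (Set.range fun A : F => f A.1) ≤
      Submodule.span K ((S.image (mono K) : Finset _) : Set (Finset α → K)) :=
    Submodule.span_le.2 fun _ ⟨A, hA⟩ => hA ▸ hf A.1 A.2
  have : FiniteDimensional K
      (Submodule.span K ((S.image (mono K) : Finset _) : Set (Finset α → K))) :=
    FiniteDimensional.span_finset K _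
  have h2 := Submodule.finrank_mono h1
  rw [finrank_span_eq_card hind, Fintype.card_coe] at h2
  exact h2.trans ((finrank_span_finset_le_card _).trans card_image_le)

variable [Fintype α]

/-- The sets of size at most `s`. -/
def smallSets (α : Type*) [Fintype α] (s : ℕ) : Finset (Finset α) := {T | #T ≤ s}

theorem card_smallSets (s : ℕ) :
    #(smallSets α s) = ∑ i ∈ range (s + 1), (Fintype.card α).choose i := by
  have h : smallSets α s = (range (s + 1)).biUnion fun i => powersetCard i univ := by
    ext T
    simp [smallSets]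
  rw [h, card_biUnion fun i _ j _ hij => disjoint_left.2 fun T hi hj =>
    hij ((mem_powersetCard.1 hi).2.symm.trans (mem_powersetCard.1 hj).2)]
  exact sum_congr rfl fun i _ => by rw [card_powersetCard, card_univ]

theorem prod_mem_span (A : Finset α) (L : Finset K) {s : ℕ} (hL : #L ≤ s) :
    (fun B : Finset α => ∏ l ∈ L, ((#(A ∩ B) : K) - l)) ∈
      Submodule.span K (mono K '' (smallSets α s : Set (Finset α))) := by
  classical
  induction L using Finset.induction_on generalizing s with
  | empty =>
    refine Submodule.subset_span ⟨∅, by simp [smallSets], ?_⟩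
    funext B
    simp [mono]
  | @insert l L hl ih =>
    rw [card_insert_of_notMem hl] at hL
    obtain ⟨t, rfl⟩ : ∃ t, s = t + 1 := ⟨s - 1, by omega⟩
    let g : Finset α → K := fun B => (#(A ∩ B) : K) - l
    have hmul : ∀ T ∈ smallSets α t, g * mono K T ∈
        Submodule.span K (mono K '' (smallSets α (t + 1) : Set (Finset α))) := by
      intro T hT
      simp only [smallSets, mem_filter, mem_univ, true_and] at hT
      have e : g * mono K T = (∑ i ∈ A, mono K (insert i T)) - l • mono K T := by
        funext B
        have h1 : ∀ i, (mono K (insert i T) B : K) = (if i ∈ B then 1 else 0) * mono K T B :=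
          fun i => by simp only [mono, insert_subset_iff]; split_ifs <;> simp_all
        simp only [Pi.mul_apply, Pi.sub_apply, Finset.sum_apply, Pi.smul_apply, smul_eq_mul, h1,
          ← sum_mul, sum_boole, filter_mem_eq_inter, g]
        ring
      rw [e]
      refine Submodule.sub_mem _ (Submodule.sum_mem _ fun i _ => Submodule.subset_span
        ⟨insert i T, ?_, rfl⟩) (Submodule.smul_mem _ _ (Submodule.subset_span ⟨T, ?_, rfl⟩))
      · simp only [smallSets, coe_filter, mem_univ, true_and, Set.mem_ofPred_eq]
        exact (card_insert_le _ _).trans (by omega)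
      · simp only [smallSets, coe_filter, mem_univ, true_and, Set.mem_ofPred_eq]
        omega
    have hle : (Submodule.span K (mono K '' (smallSets α t : Set (Finset α)))).map
        (LinearMap.mulLeft K g) ≤
          Submodule.span K (mono K '' (smallSets α (t + 1) : Set (Finset α))) := by
      rw [Submodule.map_span, Submodule.span_le]
      rintro _ ⟨_, ⟨T, hT, rfl⟩, rfl⟩
      exact hmul T hT
    have := hle (Submodule.mem_map_of_mem (ih (show #L ≤ t by omega)))
    convert this using 1
    funext B
    simp [prod_insert hl, g]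

/-- **The theorem of Frankl and Wilson** modulo `p`. -/
theorem frankl_wilson {p : ℕ} [Fact p.Prime] (F : Finset (Finset α)) (L : Finset (ZMod p))
    (hsize : ∀ A ∈ F, (#A : ZMod p) ∉ L)
    (hint : ∀ A ∈ F, ∀ B ∈ F, A ≠ B → (#(A ∩ B) : ZMod p) ∈ L) :
    #F ≤ ∑ i ∈ range (#L + 1), (Fintype.card α).choose i := by
  rw [← card_smallSets]
  refine card_le_of_triangular _ F (fun A B => ∏ l ∈ L, ((#(A ∩ B) : ZMod p) - l))
    (fun A _ => prod_mem_span A L le_rfl) (fun A hA => ?_) fun A hA B hB hne _ =>
      prod_eq_zero (hint A hA B hB hne) (sub_self _)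
  rw [inter_self]
  exact prod_ne_zero_iff.2 fun l hl h => hsize A hA (sub_eq_zero.1 h ▸ hl)

/-- **The theorem of Ray-Chaudhuri and Wilson**, without uniformity. -/
theorem ray_chaudhuri_wilson (F : Finset (Finset α)) (L : Finset ℕ)
    (hint : ∀ A ∈ F, ∀ B ∈ F, A ≠ B → #(A ∩ B) ∈ L) :
    #F ≤ ∑ i ∈ range (#L + 1), (Fintype.card α).choose i := by
  rw [← card_smallSets]
  refine card_le_of_triangular _ F
    (fun A B => ∏ l ∈ (L.filter (· < #A)).image (Nat.cast : ℕ → ℚ), ((#(A ∩ B) : ℚ) - l))
    (fun A _ => prod_mem_span A _ (card_image_le.trans (card_filter_le _ _)))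
    (fun A _ => ?_) fun A hA B hB hne hle => ?_
  · rw [inter_self]
    refine prod_ne_zero_iff.2 fun l hl h => ?_
    obtain ⟨m, hm, rfl⟩ := mem_image.1 hl
    rw [sub_eq_zero, Nat.cast_inj] at h
    have := (mem_filter.1 hm).2
    omega
  · refine prod_eq_zero (mem_image.2 ⟨_, mem_filter.2 ⟨hint A hA B hB hne, ?_⟩, rfl⟩) (sub_self _)
    refine lt_of_le_of_ne (card_le_card inter_subset_left) fun h => hne ?_
    exact eq_of_subset_of_card_le
      (inter_eq_left.1 (eq_of_subset_of_card_le inter_subset_left h.ge)) hle

/-- **Oddtown.** -/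
theorem oddtown (F : Finset (Finset α)) (hodd : ∀ A ∈ F, Odd #A)
    (hint : ∀ A ∈ F, ∀ B ∈ F, A ≠ B → Even #(A ∩ B)) : #F ≤ Fintype.card α := by
  refine (card_le_of_triangular ((univ : Finset α).image fun i => {i}) F
    (fun A B => (#(A ∩ B) : ZMod 2)) (fun A _ => ?_) (fun A hA => ?_)
    fun A hA B hB hne _ => (hint A hA B hB hne).natCast_zmod_two).trans
      (card_image_le.trans_eq card_univ)
  · have e : (fun B : Finset α => (#(A ∩ B) : ZMod 2)) = ∑ i ∈ A, mono (ZMod 2) {i} := by
      funext B
      simp only [Finset.sum_apply, mono, singleton_subset_iff, sum_boole, filter_mem_eq_inter]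
    rw [e]
    exact Submodule.sum_mem _ fun i _ => Submodule.subset_span ⟨{i}, by simp, rfl⟩
  · rw [inter_self, Ne, ZMod.natCast_eq_zero_iff_even, Nat.not_even_iff_odd]
    exact hodd A hA

/-- The Ramsey graph of Frankl and Wilson: sets are adjacent if their intersection has size
`≢ -1` modulo `p`. -/
def ramseyGraph (α : Type*) [DecidableEq α] (p : ℕ) :
    SimpleGraph {A : Finset α // #A = p ^ 2 - 1} :=
  SimpleGraph.fromRel fun A B => ¬(p ∣ #(A.1 ∩ B.1) + 1)

theorem ramseyGraph_cliques {p : ℕ} [Fact p.Prime] :
    (ramseyGraph α p).CliqueFree (∑ i ∈ range p, (Fintype.card α).choose i + 1) ∧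
      (ramseyGraph α p)ᶜ.CliqueFree (∑ i ∈ range p, (Fintype.card α).choose i + 1) := by
  classical
  have hp := (Fact.out : p.Prime)
  have hp2 : 1 ≤ p ^ 2 := Nat.one_le_pow _ _ hp.pos
  constructor
  · intro C hC
    obtain ⟨hclique, hcard⟩ := (SimpleGraph.isNClique_iff (ramseyGraph α p)).1 hC
    have h := frankl_wilson (p := p) (C.map (Function.Embedding.subtype _))
      ((univ : Finset (ZMod p)).erase (-1)) (fun A hA => ?_) fun A hA B hB hne => ?_
    · rw [card_map, hcard, card_erase_of_mem (mem_univ _), card_univ, ZMod.card,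
        Nat.sub_add_cancel hp.one_le] at h
      omega
    · obtain ⟨⟨A', hA'⟩, -, rfl⟩ := mem_map.1 hA
      refine fun hmem => (mem_erase.1 hmem).1 ?_
      rw [eq_neg_iff_add_eq_zero]
      simp only [Function.Embedding.coe_subtype, hA', ← Nat.cast_one (R := ZMod p),
        ← Nat.cast_add, Nat.sub_add_cancel hp2, ZMod.natCast_eq_zero_iff]
      exact dvd_pow_self p two_ne_zero
    · obtain ⟨A', hAC, rfl⟩ := mem_map.1 hA
      obtain ⟨B', hBC, rfl⟩ := mem_map.1 hB
      have hadj := hclique hAC hBC fun h => hne (h ▸ rfl)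
      refine mem_erase.2 ⟨fun h => ?_, mem_univ _⟩
      rw [eq_neg_iff_add_eq_zero, ← Nat.cast_one (R := ZMod p), ← Nat.cast_add,
        ZMod.natCast_eq_zero_iff] at h
      simp only [ramseyGraph, SimpleGraph.fromRel_adj, Function.Embedding.coe_subtype] at hadj h
      rcases hadj.2 with h' | h'
      · exact h' h
      · exact h' (by rwa [inter_comm])
  · intro C hC
    obtain ⟨hclique, hcard⟩ := (SimpleGraph.isNClique_iff (ramseyGraph α p)ᶜ).1 hC
    have h := ray_chaudhuri_wilson (C.map (Function.Embedding.subtype _))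
      ((range (p - 1)).image fun j => p * (j + 1) - 1) fun A hA B hB hne => ?_
    · rw [card_map, hcard] at h
      have : #((range (p - 1)).image fun j => p * (j + 1) - 1) + 1 ≤ p := by
        have := card_image_le (s := range (p - 1)) (f := fun j => p * (j + 1) - 1)
        rw [card_range] at this
        have := hp.one_le
        omega
      have := sum_le_sum_of_subset (f := fun i => (Fintype.card α).choose i)
        (range_subset_range.2 this)
      omega
    · obtain ⟨A', hAC, rfl⟩ := mem_map.1 hA
      obtain ⟨B', hBC, rfl⟩ := mem_map.1 hB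
      have hne' : A' ≠ B' := fun h => hne (h ▸ rfl)
      have hadj := hclique hAC hBC hne'
      simp only [ramseyGraph, SimpleGraph.compl_adj, SimpleGraph.fromRel_adj, not_and,
        not_or, not_not] at hadj
      obtain ⟨j, hj⟩ := (hadj.2 hne').1
      have hlt : #(A'.1 ∩ B'.1) < p ^ 2 - 1 := by
        refine lt_of_le_of_ne ((card_le_card inter_subset_left).trans_eq A'.2) fun h => ?_
        have e := eq_of_subset_of_card_le inter_subset_left (A'.2.trans_le h.ge)
        exact hne' (Subtype.ext (eq_of_subset_of_card_le (inter_eq_left.1 e)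
          (B'.2.trans_le A'.2.ge)))
      have hj0 : j ≠ 0 := by rintro rfl; omega
      have hjp : j < p := by
        by_contra! hge
        have := Nat.mul_le_mul_left p hge
        rw [← sq] at this
        omega
      refine mem_image.2 ⟨j - 1, mem_range.2 (by omega), ?_⟩
      simp only [Function.Embedding.coe_subtype]
      rw [Nat.sub_add_cancel (Nat.one_le_iff_ne_zero.2 hj0), ← hj, Nat.add_sub_cancel]

/-- The graphs are large compared with any power of their clique numbers. -/
theorem ramseyGraph_large {p k : ℕ} (hp : 2 ≤ p) (hk : 3 * k + 1 ≤ p) :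
    (∑ i ∈ range p, (p ^ 3).choose i + 1) ^ k < (p ^ 3).choose (p ^ 2 - 1) := by
  have h1 : ∑ i ∈ range p, (p ^ 3).choose i + 1 ≤ p ^ (3 * p) := by
    have h : ∑ i ∈ range p, (p ^ 3).choose i ≤ p * (p ^ 3) ^ (p - 1) := by
      refine (sum_le_card_nsmul (range p) _ ((p ^ 3) ^ (p - 1)) fun i hi => ?_).trans_eq (by simp)
      exact (Nat.choose_le_pow _ _).trans (Nat.pow_le_pow_right (pow_pos (by omega) 3)
        (by have := mem_range.1 hi; omega))
    rw [← pow_mul, ← pow_succ'] at h
    have h2 : p ^ (3 * (p - 1) + 1) * p ≤ p ^ (3 * p) := by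
      rw [← pow_succ]
      exact Nat.pow_le_pow_right (by omega) (by omega)
    have := Nat.mul_le_mul_left (p ^ (3 * (p - 1) + 1)) hp
    have := Nat.one_le_pow (3 * (p - 1) + 1) p (by omega)
    omega
  have hsq : k * (3 * p) < p ^ 2 - 1 := by
    have := Nat.mul_le_mul_right p hk
    rw [← sq, add_mul, one_mul, mul_right_comm] at this
    rw [mul_comm k]
    omega
  calc (∑ i ∈ range p, (p ^ 3).choose i + 1) ^ k ≤ (p ^ (3 * p)) ^ k := Nat.pow_le_pow_left h1 k
    _ = p ^ (k * (3 * p)) := by rw [← pow_mul, mul_comm]
    _ < p ^ (p ^ 2 - 1) := Nat.pow_lt_pow_right (by omega) hsq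
    _ ≤ (p ^ 3).choose (p ^ 2 - 1) := by
      have hle : p ^ 2 - 1 ≤ p ^ 3 :=
        (Nat.sub_le _ _).trans (Nat.pow_le_pow_right (by omega) (by omega))
      have key : ∀ m N : ℕ, m ≤ N → ∀ q : ℕ, m * q ≤ N → q ^ m ≤ N.choose m := by
        intro m
        induction m with
        | zero => simp
        | succ m ih =>
          intro N hmN q hq
          obtain ⟨M, rfl⟩ : ∃ M, N = M + 1 := ⟨N - 1, by omega⟩
          rcases Nat.eq_zero_or_pos q with rfl | hq0
          · simp
          have e := Nat.add_one_mul_choose_eq M m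
          have i1 := ih M (by omega) q (by rw [add_mul] at hq; omega)
          refine Nat.le_of_mul_le_mul_right ?_ (Nat.succ_pos m)
          calc q ^ (m + 1) * (m + 1) = q ^ m * ((m + 1) * q) := by ring
            _ ≤ M.choose m * (M + 1) := Nat.mul_le_mul i1 hq
            _ = (M + 1).choose (m + 1) * (m + 1) := by rw [mul_comm, e]
      refine key _ _ hle p ?_
      calc (p ^ 2 - 1) * p ≤ p ^ 2 * p := Nat.mul_le_mul_right _ (Nat.sub_le _ _)
        _ = p ^ 3 := by ring

end FA.FranklWilson

end
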